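import Fermat.Agent.S16.H548.AlgCore
import Fermat.Agent.S16.Interface
import Fermat.Agent.S16.H556.Basic

/-!
# S16 / WP ALG (helper548): `result_of_forms`

The frozen S16 statement for `p ≥ 5`, from the four analytic inputs of the skeleton
(`HasEis`, `CuspCrit`, `UpperBound`, `LowerBound`), in the EXACT shape of
`Skel.result_of_forms` (`origin/helper556:Fermat/Agent/S16/Skeleton.lean`).

Proof: `ℤ → T ⧸ I` is onto, so `T ⧸ I ≃ ℤ/m`;
* `n ∣ m` : `h = (12/ν) e - n G` (`G` from `LowerBound`) is a cusp form (`CuspCrit`) in `L` which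
  is an Eisenstein eigenvector modulo `n`, so `I ∩ ℤ ⊆ nℤ` (`dvd_of_intCast_mem`);
* `m ∣ n` : by duality (`exists_lat_congr`) there is `f ∈ L` with `a_k(f) ≡ σ'(k) mod m`, so
  `(e - f)/m` has integral higher coefficients and constant term `(p-1)/(24 m)`; `UpperBound`.
-/

set_option autoImplicit false
set_option linter.unusedSectionVars false

noncomputable section

namespace Fermat.Agent.S16.H548

open ModularCurve CuspForm ModularFormClass UpperHalfPlane CongruenceSubgroup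
open P2MW.S_CuspForm_intLattice_fg
open Fermat.Agent.S16
open Fermat.Agent.S20 (MF SF)

variable (p : ℕ) [Fact p.Prime]

/-! ### Arithmetic of `n = (p - 1) / gcd (p - 1, 12)` -/

theorem eisNum_mul_gcd : eisensteinNumerator p * Nat.gcd (p - 1) 12 = p - 1 :=
  Nat.div_mul_cancel (Nat.gcd_dvd_left _ _)

theorem twelve_div_mul_gcd : 12 / Nat.gcd (p - 1) 12 * Nat.gcd (p - 1) 12 = 12 :=
  Nat.div_mul_cancel (Nat.gcd_dvd_right _ _)

theorem gcd_pos' : 0 < Nat.gcd (p - 1) 12 := Nat.gcd_pos_of_pos_right _ (by norm_num)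

theorem eisNum_pos : 0 < eisensteinNumerator p := by
  have hp : p.Prime := Fact.out
  have h := eisNum_mul_gcd p
  rcases Nat.eq_zero_or_pos (eisensteinNumerator p) with h0 | h0
  · rw [h0, zero_mul] at h
    have := hp.two_le
    omega
  · exact h0

theorem coprime_twelve_div_eisNum :
    IsCoprime ((12 / Nat.gcd (p - 1) 12 : ℕ) : ℤ) ((eisensteinNumerator p : ℕ) : ℤ) := by
  rw [Nat.isCoprime_iff_coprime]
  exact (Nat.coprime_div_gcd_div_gcd (gcd_pos' p)).symm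

/-! ### The cusp form for the lower bound -/

theorem exists_LB_form (hE : HasEis p) (hC : CuspCrit p) (hLB : LowerBound p) :
    ∃ h : Lat p, ∀ k : ℕ, 1 ≤ k → ((eisensteinNumerator p : ℕ) : ℤ) ∣
      coefZ p k h - ((12 / Nat.gcd (p - 1) 12 : ℕ) : ℤ) * (sigmaP p k : ℤ) := by
  have hp : p.Prime := Fact.out
  obtain ⟨e, he, he0, hek⟩ := hE
  obtain ⟨G, hG, hG0, hGk⟩ := hLB
  set n : ℕ := eisensteinNumerator p with hn
  set ν : ℕ := Nat.gcd (p - 1) 12 with hν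
  set c : ℕ := 12 / ν with hc
  have h1 : ((n : ℂ)) * (ν : ℂ) = (p : ℂ) - 1 := by
    have := eisNum_mul_gcd p
    have h' : ((n * ν : ℕ) : ℂ) = ((p - 1 : ℕ) : ℂ) := by rw [← hn, ← hν] at this; rw [this]
    rw [Nat.cast_mul, Nat.cast_sub hp.one_lt.le] at h'
    simpa using h'
  have h2 : ((c : ℂ)) * (ν : ℂ) = 12 := by
    have := twelve_div_mul_gcd p
    have h' : ((c * ν : ℕ) : ℂ) = ((12 : ℕ) : ℂ) := by rw [← hν, ← hc] at this; rw [this]
    rw [Nat.cast_mul] at h'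
    simpa using h'
  have hν0 : (ν : ℂ) ≠ 0 := by
    have := gcd_pos' p
    exact_mod_cast this.ne'
  -- the function
  have hce : (c : ℂ) • e ∈ MF (Gamma0 p) 2 := (MF (Gamma0 p) 2).smul_mem _ he
  have hnG : (n : ℂ) • G ∈ MF (Gamma0 p) 2 := (MF (Gamma0 p) 2).smul_mem _ hG
  have hmem : (c : ℂ) • e - (n : ℂ) • G ∈ MF (Gamma0 p) 2 := (MF (Gamma0 p) 2).sub_mem hce hnG
  have hq : ∀ k, qCoeff ((c : ℂ) • e - (n : ℂ) • G) k =
      (c : ℂ) * qCoeff e k - (n : ℂ) * qCoeff G k := by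
    intro k
    rw [H556.qCoeff_sub hce hnG, H556.qCoeff_smul he, H556.qCoeff_smul hG]
  have hq0 : qCoeff ((c : ℂ) • e - (n : ℂ) • G) 0 = 0 := by
    rw [hq, he0, hG0, ← h1]
    have : (c : ℂ) * (((n : ℂ)) * (ν : ℂ) / 24) - (n : ℂ) * (1 / 2) =
        (n : ℂ) * ((c : ℂ) * (ν : ℂ)) / 24 - (n : ℂ) / 2 := by ring
    rw [this, h2]
    ring
  have hSF := hC _ hmem hq0
  obtain ⟨g, hg⟩ := Fermat.Agent.S20.C0h516.mem_SF_iff_exists.mp hSF
  have hcoef : ∀ k, 1 ≤ k → ∃ a : ℤ, coefC p k g = ((c : ℤ) * (sigmaP p k : ℤ) - (n : ℤ) * a : ℤ) := by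
    intro k hk
    obtain ⟨a, ha⟩ := hGk k hk
    refine ⟨a, ?_⟩
    rw [coefC_apply, hg, hq, hek k hk, ha]
    push_cast
    ring
  have hgL : g ∈ CuspForm.intLattice p 2 := by
    apply mem_lat_of_coefC
    intro k
    rcases Nat.eq_zero_or_pos k with rfl | hk
    · exact ⟨0, by rw [coefC_zero_apply]; simp⟩
    · obtain ⟨a, ha⟩ := hcoef k hk
      exact ⟨_, ha⟩
  refine ⟨⟨g, hgL⟩, fun k hk => ?_⟩
  obtain ⟨a, ha⟩ := hcoef k hk
  have h3 : coefZ p k ⟨g, hgL⟩ = (c : ℤ) * (sigmaP p k : ℤ) - (n : ℤ) * a := by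
    have := coefZ_spec p k ⟨g, hgL⟩
    rw [Subtype.coe_mk, ha] at this
    exact_mod_cast this.symm
  rw [h3]
  exact ⟨-a, by ring⟩

/-! ### The upper bound step -/

theorem dvd_eisNum_of_lat_congr (hp5 : 5 ≤ p) (hE : HasEis p) (hUB : UpperBound p) (m : ℕ)
    (f : Lat p) (hf : ∀ k : ℕ, 1 ≤ k → (m : ℤ) ∣ coefZ p k f - (sigmaP p k : ℤ)) :
    m ≠ 0 ∧ m ∣ eisensteinNumerator p := by
  have hp : p.Prime := Fact.out
  obtain ⟨e, he, he0, hek⟩ := hE
  set n : ℕ := eisensteinNumerator p with hn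
  set ν : ℕ := Nat.gcd (p - 1) 12 with hν
  -- the modulus `M`
  set M : ℕ := if m = 0 then p else m with hM
  have hM0 : M ≠ 0 := by
    rw [hM]
    split_ifs with h
    · exact hp.ne_zero
    · exact h
  have hMdvd : ∀ k : ℕ, 1 ≤ k → (M : ℤ) ∣ coefZ p k f - (sigmaP p k : ℤ) := by
    intro k hk
    have := hf k hk
    rw [hM]
    split_ifs with h
    · rw [h] at this
      have h0 : coefZ p k f - (sigmaP p k : ℤ) = 0 := by simpa using this
      rw [h0]
      exact dvd_zero _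
    · exact this
  have hMC : (M : ℂ) ≠ 0 := by exact_mod_cast hM0
  -- the form `(e - f) / M`
  have hfMF : (⇑(f : S2 p) : ℍ → ℂ) ∈ MF (Gamma0 p) 2 :=
    Fermat.Agent.S20.SF_le_MF _ _ (Fermat.Agent.S20.C0h516.coe_mem_SF (f : S2 p))
  have hsub : e - ⇑(f : S2 p) ∈ MF (Gamma0 p) 2 := (MF (Gamma0 p) 2).sub_mem he hfMF
  have hG : (M : ℂ)⁻¹ • (e - ⇑(f : S2 p)) ∈ MF (Gamma0 p) 2 := (MF (Gamma0 p) 2).smul_mem _ hsub
  have hq : ∀ k, qCoeff ((M : ℂ)⁻¹ • (e - ⇑(f : S2 p))) k =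
      (M : ℂ)⁻¹ * (qCoeff e k - coefC p k (f : S2 p)) := by
    intro k
    rw [H556.qCoeff_smul hsub, H556.qCoeff_sub he hfMF]
    rfl
  have hint : IntFrom1 ((M : ℂ)⁻¹ • (e - ⇑(f : S2 p))) := by
    intro k hk
    obtain ⟨a, ha⟩ := hMdvd k hk
    refine ⟨-a, ?_⟩
    rw [hq, hek k hk, coefZ_spec]
    have ha' : (coefZ p k f : ℂ) - (sigmaP p k : ℂ) = (M : ℂ) * (a : ℂ) := by
      exact_mod_cast congrArg (Int.cast : ℤ → ℂ) ha
    have : (sigmaP p k : ℂ) - (coefZ p k f : ℂ) = (M : ℂ) * (-(a : ℂ)) := by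
      linear_combination -ha'
    rw [this, ← mul_assoc, inv_mul_cancel₀ hMC, one_mul]
    push_cast
    ring
  obtain ⟨m', hm'⟩ := hUB _ hG hint
  rw [hq, he0, coefC_zero_apply, sub_zero] at hm'
  -- `p - 1 = ν * m' * M`
  have h1 : (p : ℂ) - 1 = (ν : ℂ) * (m' : ℂ) * (M : ℂ) := by
    have : 24 * ((M : ℂ)⁻¹ * (((p : ℂ) - 1) / 24)) * (M : ℂ) = (p : ℂ) - 1 := by
      field_simp
    rw [← this, hm']
  have h2 : ((p - 1 : ℕ) : ℤ) = (ν : ℤ) * m' * (M : ℤ) := by
    have : (((p - 1 : ℕ) : ℤ) : ℂ) = (((ν : ℤ) * m' * (M : ℤ) : ℤ) : ℂ) := by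
      push_cast
      rw [Nat.cast_sub hp.one_lt.le]
      simpa using h1
    exact_mod_cast this
  have h3 : ((n : ℕ) : ℤ) = m' * (M : ℤ) := by
    have h4 := eisNum_mul_gcd p
    rw [← hn, ← hν] at h4
    have h5 : ((n : ℤ)) * (ν : ℤ) = (ν : ℤ) * m' * (M : ℤ) := by
      rw [← h2]
      exact_mod_cast congrArg (Nat.cast : ℕ → ℤ) h4
    have hν0 : (ν : ℤ) ≠ 0 := by
      have := gcd_pos' p
      exact_mod_cast this.ne'
    have h6 : (ν : ℤ) * (n : ℤ) = (ν : ℤ) * (m' * (M : ℤ)) := by linear_combination h5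
    exact mul_left_cancel₀ hν0 h6
  have hMn : M ∣ n := by
    have : (M : ℤ) ∣ (n : ℤ) := ⟨m', by rw [h3]; ring⟩
    exact_mod_cast this
  have hm0 : m ≠ 0 := by
    intro h
    have hMp : M = p := by rw [hM, if_pos h]
    rw [hMp] at hMn
    have h7 : p ∣ p - 1 := hMn.trans (eisensteinNumerator_dvd p)
    have h8 := Nat.le_of_dvd (by have := hp.two_le; omega) h7
    have := hp.two_le
    omega
  refine ⟨hm0, ?_⟩
  have hMm : M = m := by rw [hM, if_neg hm0]
  rwa [hMm] at hMn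

/-! ### The quotient `T ⧸ I` is a quotient of `ℤ` -/

theorem intCast_surjective_quot :
    Function.Surjective (Int.castRingHom (TT p ⧸ eisI p)) := by
  intro y
  obtain ⟨x, rfl⟩ := Ideal.Quotient.mk_surjective y
  obtain ⟨P, rfl⟩ := psi_surjective p x
  refine ⟨eisEv p P, ?_⟩
  have h := psi_sub_intCast_mem p P
  rw [← Ideal.Quotient.eq] at h
  rw [h]
  simp

/-- **WP ALG (main)**, in the exact shape of `Skel.result_of_forms`. -/
theorem result_of_forms (p : ℕ) [Fact p.Prime] (hp5 : 5 ≤ p)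
    (hE : HasEis p) (hC : CuspCrit p) (hUB : UpperBound p) (hLB : LowerBound p) :
    Nat.card (↥(CuspForm.heckeLatticeAlgebra p ∅) ⧸
        Ideal.map ((CuspForm.latticeRestrictHom p ∅).toRingHom.comp (CuspForm.heckeEvalForms p 2))
          (ModularCurve.eisensteinIdeal p)) =
      ModularCurve.eisensteinNumerator p := by
  change Nat.card (TT p ⧸ eisI p) = eisensteinNumerator p
  have hsurj := intCast_surjective_quot p
  -- the generator `m` of the kernel of `ℤ → T ⧸ I`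
  set K : Ideal ℤ := RingHom.ker (Int.castRingHom (TT p ⧸ eisI p)) with hK
  set m : ℕ := (Submodule.IsPrincipal.generator K).natAbs with hm
  have hKm : K = Ideal.span {(m : ℤ)} := by
    rw [hm, Int.span_natAbs, Ideal.span_singleton_generator]
  -- `T ⧸ I ≃ ℤ/m`
  let E : (TT p ⧸ eisI p) ≃+* ZMod m :=
    (RingHom.quotientKerEquivOfSurjective hsurj).symm.trans
      ((Ideal.quotEquivOfEq hKm).trans (Int.quotientSpanNatEquivZMod m))
  have hcard : Nat.card (TT p ⧸ eisI p) = m := by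
    rw [Nat.card_congr E.toEquiv, Nat.card_zmod]
  -- the character `χ`
  let χ : TT p →+* ZMod m := E.toRingHom.comp (Ideal.Quotient.mk (eisI p))
  have hχ : ∀ x ∈ eisI p, χ x = 0 := by
    intro x hx
    show E (Ideal.Quotient.mk (eisI p) x) = 0
    rw [Ideal.Quotient.eq_zero_iff_mem.mpr hx, map_zero]
  -- `m ∈ I`
  have hmI : (((m : ℤ) : ℤ) : TT p) ∈ eisI p := by
    have h1 : (m : ℤ) ∈ K := by
      rw [hKm]
      exact Ideal.mem_span_singleton_self _
    rw [hK, RingHom.mem_ker] at h1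
    rw [← Ideal.Quotient.eq_zero_iff_mem, map_intCast]
    simpa using h1
  -- lower bound: `n ∣ m`
  obtain ⟨h, hh⟩ := exists_LB_form p hE hC hLB
  have hn0 : ((eisensteinNumerator p : ℕ) : ℤ) ≠ 0 := by
    have := eisNum_pos p
    exact_mod_cast this.ne'
  have hnm : eisensteinNumerator p ∣ m := by
    have := dvd_of_intCast_mem p _ hn0 h _ hh (coprime_twelve_div_eisNum p) (m : ℤ) hmI
    exact_mod_cast this
  -- upper bound: `m ∣ n`
  obtain ⟨f, hf⟩ := exists_lat_congr p m χ hχ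
  obtain ⟨-, hmn⟩ := dvd_eisNum_of_lat_congr p hp5 hE hUB m f hf
  rw [hcard]
  exact Nat.dvd_antisymm hmn hnm

end Fermat.Agent.S16.H548
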