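import Mathlib
import Fermat.Agent.S16.Defs

/-!
# S16 / WP ALG (helper548): divisor-sum identities for `sigmaP`

`sigmaP p k = ∑_{d ∣ k, p ∤ d} d`.  We prove the two "Hecke eigenvalue" identities

* `sigmaP p (k * p) = sigmaP p k`                                         (`U_p`-eigenvalue `1`),
* `sigmaP p (k * ℓ) + [ℓ ∣ k] ℓ sigmaP p (k / ℓ) = (1 + ℓ) sigmaP p k`   (`T_ℓ`-eigenvalue `1 + ℓ`).
-/

set_option autoImplicit false

namespace Fermat.Agent.S16.H548

open Fermat.Agent.S16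

theorem sigmaP_one (p : ℕ) (hp : 1 < p) : sigmaP p 1 = 1 := by
  unfold sigmaP
  rw [Nat.divisors_one, Finset.filter_singleton, if_pos]
  · simp
  · intro h
    have := Nat.le_of_dvd one_pos h
    omega

theorem sigmaP_mul_self (p k : ℕ) (hp : p.Prime) : sigmaP p (k * p) = sigmaP p k := by
  unfold sigmaP
  rcases Nat.eq_zero_or_pos k with rfl | hk
  · simp
  congr 1
  ext d
  simp only [Finset.mem_filter, Nat.mem_divisors]
  constructor
  · rintro ⟨⟨hd, -⟩, hpd⟩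
    refine ⟨⟨?_, hk.ne'⟩, hpd⟩
    have hcop : Nat.Coprime d p := ((Nat.Prime.coprime_iff_not_dvd hp).mpr hpd).symm
    exact hcop.dvd_of_dvd_mul_right hd
  · rintro ⟨⟨hd, -⟩, hpd⟩
    exact ⟨⟨hd.mul_right p, Nat.mul_ne_zero hk.ne' hp.ne_zero⟩, hpd⟩

/-- General inclusion–exclusion for divisor sums along `k ↦ k * ℓ`, `ℓ` prime. -/
theorem sum_divisors_mul_prime {M : Type*} [AddCommMonoid M] (f : ℕ → M) (k ℓ : ℕ)
    (hk : k ≠ 0) (hℓ : ℓ.Prime) :
    ∑ d ∈ (k * ℓ).divisors, f d + (if ℓ ∣ k then ∑ e ∈ (k / ℓ).divisors, f (ℓ * e) else 0) =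
      ∑ d ∈ k.divisors, f d + ∑ e ∈ k.divisors, f (ℓ * e) := by
  classical
  have hinj : Function.Injective (fun e : ℕ => ℓ * e) :=
    fun a b h => Nat.eq_of_mul_eq_mul_left hℓ.pos h
  set A : Finset ℕ := k.divisors with hA
  set B : Finset ℕ := k.divisors.image (fun e => ℓ * e) with hB
  have hU : A ∪ B = (k * ℓ).divisors := by
    ext d
    simp only [hA, hB, Finset.mem_union, Finset.mem_image, Nat.mem_divisors]
    constructor
    · rintro (⟨hd, -⟩ | ⟨e, ⟨he, -⟩, rfl⟩)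
      · exact ⟨hd.mul_right ℓ, Nat.mul_ne_zero hk hℓ.ne_zero⟩
      · exact ⟨by rw [mul_comm k ℓ]; exact Nat.mul_dvd_mul_left ℓ he,
          Nat.mul_ne_zero hk hℓ.ne_zero⟩
    · rintro ⟨hd, -⟩
      by_cases hℓd : ℓ ∣ d
      · obtain ⟨e, rfl⟩ := hℓd
        right
        refine ⟨e, ⟨?_, hk⟩, rfl⟩
        rw [mul_comm k ℓ] at hd
        exact Nat.dvd_of_mul_dvd_mul_left hℓ.pos hd
      · left
        have hcop : Nat.Coprime d ℓ := ((Nat.Prime.coprime_iff_not_dvd hℓ).mpr hℓd).symm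
        exact ⟨hcop.dvd_of_dvd_mul_right hd, hk⟩
  have hI : ∑ x ∈ A ∩ B, f x = if ℓ ∣ k then ∑ e ∈ (k / ℓ).divisors, f (ℓ * e) else 0 := by
    by_cases hℓk : ℓ ∣ k
    · rw [if_pos hℓk]
      have : A ∩ B = (k / ℓ).divisors.image (fun e => ℓ * e) := by
        ext d
        simp only [hA, hB, Finset.mem_inter, Finset.mem_image, Nat.mem_divisors]
        obtain ⟨k', rfl⟩ := hℓk
        have hk' : k' ≠ 0 := fun h => hk (by rw [h, mul_zero])
        rw [Nat.mul_div_cancel_left k' hℓ.pos]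
        constructor
        · rintro ⟨⟨hd, -⟩, ⟨e, -, rfl⟩⟩
          exact ⟨e, ⟨Nat.dvd_of_mul_dvd_mul_left hℓ.pos hd, hk'⟩, rfl⟩
        · rintro ⟨e, ⟨he, -⟩, rfl⟩
          refine ⟨⟨Nat.mul_dvd_mul_left ℓ he, hk⟩, e, ⟨?_, hk⟩, rfl⟩
          exact he.mul_left ℓ
      rw [this, Finset.sum_image (fun a _ b _ h => hinj h)]
    · rw [if_neg hℓk]
      have : A ∩ B = ∅ := by
        ext d
        simp only [hA, hB, Finset.mem_inter, Finset.mem_image, Nat.mem_divisors,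
          Finset.notMem_empty, iff_false]
        rintro ⟨⟨hd, -⟩, ⟨e, -, rfl⟩⟩
        exact hℓk ((dvd_mul_right ℓ e).trans hd)
      rw [this, Finset.sum_empty]
  have hBsum : ∑ x ∈ B, f x = ∑ e ∈ k.divisors, f (ℓ * e) := by
    rw [hB, Finset.sum_image (fun a _ b _ h => hinj h)]
  rw [← hU, ← hI, Finset.sum_union_inter, hBsum]

/-- `sigmaP` as a sum of the weight `d ↦ [p ∤ d] d` over all divisors. -/
theorem sigmaP_eq_sum (p k : ℕ) : sigmaP p k = ∑ d ∈ k.divisors, if p ∣ d then 0 else d := by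
  unfold sigmaP
  rw [Finset.sum_filter]
  refine Finset.sum_congr rfl fun d _ => ?_
  by_cases h : p ∣ d <;> simp [h]

theorem sigmaP_zero (p : ℕ) : sigmaP p 0 = 0 := by
  unfold sigmaP
  simp

/-- The `T_ℓ`-eigenvalue identity for `sigmaP`. -/
theorem sigmaP_mul_prime (p k ℓ : ℕ) (hp : p.Prime) (hℓ : ℓ.Prime) (hne : ℓ ≠ p) :
    sigmaP p (k * ℓ) + (if ℓ ∣ k then ℓ * sigmaP p (k / ℓ) else 0) = (1 + ℓ) * sigmaP p k := by
  rcases Nat.eq_zero_or_pos k with rfl | hk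
  · simp [sigmaP_zero]
  have hw : ∀ e : ℕ, (if p ∣ ℓ * e then 0 else ℓ * e) = ℓ * (if p ∣ e then 0 else e) := by
    intro e
    have hpl : ¬ p ∣ ℓ := fun h => hne ((Nat.prime_dvd_prime_iff_eq hp hℓ).mp h).symm
    have : p ∣ ℓ * e ↔ p ∣ e := by
      constructor
      · intro h
        exact (hp.dvd_mul.mp h).resolve_left hpl
      · intro h
        exact h.mul_left ℓ
    by_cases h : p ∣ e
    · rw [if_pos (this.mpr h), if_pos h, mul_zero]
    · rw [if_neg (fun h' => h (this.mp h')), if_neg h]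
  have key := sum_divisors_mul_prime (fun d => if p ∣ d then 0 else d) k ℓ hk.ne' hℓ
  simp only [hw, ← Finset.mul_sum] at key
  rw [← sigmaP_eq_sum, ← sigmaP_eq_sum, ← sigmaP_eq_sum] at key
  rw [key]
  ring

end Fermat.Agent.S16.H548
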