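import Fermat.Statements.S16
import Fermat.Prelude.Thm_ModularFormClass_qCoeff_heckeT
import Fermat.Prelude.Thm_ModularFormClass_qCoeff_heckeU
import Fermat.Agent.S16.H548.SigmaP

/-!
# S16 / WP ALG (helper548): basic API

* `coefC k : S₂(Γ₀(N)) →ₗ[ℂ] ℂ`, `coefZ k : L →ₗ[ℤ] ℤ` : the `k`-th `q`-coefficient;
* saturation of the integral lattice `L`;
* `q`-expansion principle on `S₂`;
* action of the generators of the Hecke algebra on `q`-coefficients;
* surjectivity of `ψ : ℤ[X_ℓ] → T`.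
-/

set_option autoImplicit false

noncomputable section

namespace Fermat.Agent.S16.H548

open ModularCurve CuspForm ModularFormClass UpperHalfPlane
open P2MW.S_CuspForm_intLattice_fg

variable (N : ℕ)

/-- `S₂(Γ₀(N))`. -/
abbrev S2 : Type := CuspForm (CongruenceSubgroup.Gamma0 N) 2

/-- The integral lattice `L ⊆ S₂(Γ₀(N))`. -/
abbrev Lat : Type := ↥(CuspForm.intLattice N 2)

/-- The `k`-th `q`-coefficient as a `ℂ`-linear functional on cusp forms. -/
def coefC (k : ℕ) : S2 N →ₗ[ℂ] ℂ where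
  toFun f := qCoeff ⇑f k
  map_add' f g := W3WsD.qCoeff_add f g k
  map_smul' c f := by
    have h1 : (⇑(c • f) : ℍ → ℂ) = c • ⇑f := rfl
    simp only [qCoeff, h1, RingHom.id_apply]
    rw [ModularForm.qExpansion_smul one_pos (W3WsD.hΓ N) c f]
    simp

theorem coefC_apply (k : ℕ) (f : S2 N) : coefC N k f = qCoeff ⇑f k := rfl

theorem coefC_zero_apply (f : S2 N) : coefC N 0 f = 0 := by
  rw [coefC_apply]
  exact CuspFormClass.qExpansion_coeff_zero f one_pos (W3WsD.hΓ N)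

theorem exists_int_coef (f : Lat N) (k : ℕ) : ∃ m : ℤ, coefC N k (f : S2 N) = (m : ℂ) :=
  (W3WsD.mem_intLattice_iff (f : S2 N)).mp f.2 k

/-- The `k`-th `q`-coefficient of an element of the integral lattice, as an integer. -/
def coefZfun (k : ℕ) (f : Lat N) : ℤ := (exists_int_coef N f k).choose

theorem coefZfun_spec (k : ℕ) (f : Lat N) : coefC N k (f : S2 N) = (coefZfun N k f : ℂ) :=
  (exists_int_coef N f k).choose_spec

/-- The `k`-th `q`-coefficient as a `ℤ`-linear functional on the integral lattice. -/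
def coefZ (k : ℕ) : Lat N →ₗ[ℤ] ℤ where
  toFun := coefZfun N k
  map_add' f g := by
    have h : ((coefZfun N k (f + g) : ℤ) : ℂ) = ((coefZfun N k f + coefZfun N k g : ℤ) : ℂ) := by
      rw [← coefZfun_spec, Int.cast_add, ← coefZfun_spec, ← coefZfun_spec, Submodule.coe_add,
        map_add]
    exact_mod_cast h
  map_smul' c f := by
    have h : ((coefZfun N k (c • f) : ℤ) : ℂ) = ((c * coefZfun N k f : ℤ) : ℂ) := by
      rw [← coefZfun_spec, Int.cast_mul, ← coefZfun_spec, Submodule.coe_smul,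
        ← Int.cast_smul_eq_zsmul ℂ c (f : S2 N), map_smul, smul_eq_mul]
    simp only [RingHom.id_apply, smul_eq_mul]
    exact_mod_cast h

theorem coefZ_spec (k : ℕ) (f : Lat N) : coefC N k (f : S2 N) = (coefZ N k f : ℂ) :=
  coefZfun_spec N k f

theorem coefZ_zero_apply (f : Lat N) : coefZ N 0 f = 0 := by
  have := coefZ_spec N 0 f
  rw [coefC_zero_apply] at this
  exact_mod_cast this.symm

/-- `q`-expansion principle on `S₂(Γ₀(N))`. -/
theorem eq_zero_of_coefC [NeZero N] (f : S2 N) (h : ∀ k : ℕ, 1 ≤ k → coefC N k f = 0) : f = 0 := by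
  apply W3WsD.trunc_injective N 2
  funext i
  show qCoeff ⇑f i = qCoeff ⇑(0 : S2 N) i
  rw [W3WsD.qCoeff_zero']
  rcases Nat.eq_zero_or_pos (i : ℕ) with h0 | h0
  · rw [h0]
    exact coefC_zero_apply N f
  · exact h i h0

theorem eq_zero_of_coefZ [NeZero N] (f : Lat N) (h : ∀ k : ℕ, 1 ≤ k → coefZ N k f = 0) : f = 0 := by
  apply Subtype.ext
  apply eq_zero_of_coefC N
  intro k hk
  rw [coefZ_spec, h k hk, Int.cast_zero]

/-- Saturation of the integral lattice. -/
theorem exists_lat_smul_eq (f : S2 N) (n : ℤ) (hn : n ≠ 0)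
    (h : ∀ k : ℕ, ∃ m : ℤ, coefC N k f = (n : ℂ) * (m : ℂ)) :
    ∃ g : Lat N, n • (g : S2 N) = f := by
  have hn' : (n : ℂ) ≠ 0 := by exact_mod_cast hn
  refine ⟨⟨(n : ℂ)⁻¹ • f, ?_⟩, ?_⟩
  · rw [W3WsD.mem_intLattice_iff]
    intro k
    obtain ⟨m, hm⟩ := h k
    refine ⟨m, ?_⟩
    have : qCoeff ⇑((n : ℂ)⁻¹ • f) k = coefC N k ((n : ℂ)⁻¹ • f) := rfl
    rw [this, map_smul, hm, smul_eq_mul, ← mul_assoc, inv_mul_cancel₀ hn', one_mul]
  · show n • ((n : ℂ)⁻¹ • f) = f
    rw [← Int.cast_smul_eq_zsmul ℂ n, smul_smul, mul_inv_cancel₀ hn', one_smul]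

theorem mem_lat_of_coefC (f : S2 N) (h : ∀ k : ℕ, ∃ m : ℤ, coefC N k f = (m : ℂ)) :
    f ∈ CuspForm.intLattice N 2 :=
  (W3WsD.mem_intLattice_iff f).mpr h

end Fermat.Agent.S16.H548
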