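import Fermat.Agent.S16.H548.AlgLat

/-!
# S16 / WP ALG (helper548): lower bound and duality at the level of the lattice
-/

set_option autoImplicit false
set_option linter.unusedSectionVars false

noncomputable section

namespace Fermat.Agent.S16.H548

open ModularCurve CuspForm ModularFormClass UpperHalfPlane
open P2MW.S_CuspForm_intLattice_fg
open Fermat.Agent.S16

variable (p : ℕ) [Fact p.Prime]

/-! ### Lower bound -/

section LB

variable (n : ℤ) (hn : n ≠ 0) (h : Lat p) (c : ℤ)
  (hh : ∀ k : ℕ, 1 ≤ k → n ∣ coefZ p k h - c * (sigmaP p k : ℤ))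

include hn hh

/-- `h` is an eigenvector modulo `n` for the generators, with the Eisenstein eigenvalues. -/
theorem eigen_mod_X (ℓ : Nat.Primes) :
    ∃ g : Lat p, act p (psi p (MvPolynomial.X ℓ)) h - eisEv p (MvPolynomial.X ℓ) • h = n • g := by
  have hp : p.Prime := Fact.out
  obtain ⟨g, hg⟩ := exists_lat_zsmul_eq p
    (act p (psi p (MvPolynomial.X ℓ)) h - eisEv p (MvPolynomial.X ℓ) • h) n hn (fun k hk => by
      rw [map_sub, map_smul, smul_eq_mul]
      by_cases hℓ : (ℓ : ℕ) ∣ p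
      · have hℓeq : (ℓ : ℕ) = p := (Nat.prime_dvd_prime_iff_eq ℓ.2 hp).mp hℓ
        rw [coefZ_act_X_of_dvd p ℓ hℓ, eisEv_X_of_dvd p ℓ hℓ, one_mul]
        have h1 := hh (k * ℓ) (Nat.mul_pos hk ℓ.2.pos)
        have h2 := hh k hk
        rw [hℓeq, sigmaP_mul_self p k hp] at h1
        rw [hℓeq]
        have := dvd_sub h1 h2
        have e : coefZ p (k * p) h - c * (sigmaP p k : ℤ) - (coefZ p k h - c * (sigmaP p k : ℤ))
            = coefZ p (k * p) h - coefZ p k h := by ring
        rwa [e] at this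
      · have hne : (ℓ : ℕ) ≠ p := fun h => hℓ (h ▸ dvd_rfl)
        rw [coefZ_act_X_of_ne p ℓ hℓ, eisEv_X_of_ne p ℓ hℓ]
        have hid := sigmaP_mul_prime p k ℓ hp ℓ.2 hne
        have h1 := hh (k * ℓ) (Nat.mul_pos hk ℓ.2.pos)
        have h2 := hh k hk
        by_cases hdiv : (ℓ : ℕ) ∣ k
        · rw [if_pos hdiv] at hid ⊢
          have h3 := hh (k / ℓ) (Nat.div_pos (Nat.le_of_dvd hk hdiv) ℓ.2.pos)
          have hid' : (sigmaP p (k * ℓ) : ℤ) + (ℓ : ℤ) * (sigmaP p (k / ℓ) : ℤ) =
              (1 + (ℓ : ℤ)) * (sigmaP p k : ℤ) := by exact_mod_cast hid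
          obtain ⟨a1, ha1⟩ := h1
          obtain ⟨a2, ha2⟩ := h2
          obtain ⟨a3, ha3⟩ := h3
          refine ⟨a1 + (ℓ : ℤ) * a3 - (1 + (ℓ : ℤ)) * a2, ?_⟩
          linear_combination ha1 + (ℓ : ℤ) * ha3 - (1 + (ℓ : ℤ)) * ha2 + c * hid'
        · rw [if_neg hdiv, add_zero] at hid ⊢
          have hid' : (sigmaP p (k * ℓ) : ℤ) = (1 + (ℓ : ℤ)) * (sigmaP p k : ℤ) := by
            exact_mod_cast hid
          obtain ⟨a1, ha1⟩ := h1
          obtain ⟨a2, ha2⟩ := h2
          refine ⟨a1 - (1 + (ℓ : ℤ)) * a2, ?_⟩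
          linear_combination ha1 - (1 + (ℓ : ℤ)) * ha2 + c * hid')
  exact ⟨g, hg.symm⟩

/-- `h` is an eigenvector modulo `n` for all of `ℤ[X_ℓ]`, with the Eisenstein eigenvalues. -/
theorem eigen_mod (P : HeckeAlg) :
    ∃ g : Lat p, act p (psi p P) h - eisEv p P • h = n • g := by
  induction P using MvPolynomial.induction_on with
  | C a =>
    refine ⟨0, ?_⟩
    have h1 : psi p (MvPolynomial.C a) = ((a : ℤ) : TT p) := by
      rw [show (MvPolynomial.C a : HeckeAlg) = ((a : ℤ) : HeckeAlg) from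
        (map_intCast MvPolynomial.C _), map_intCast]
    have h2 : eisEv p (MvPolynomial.C a) = a := by simp [eisEv]
    rw [h1, h2, smul_zero]
    have h3 : act p ((a : ℤ) : TT p) = (a : Module.End ℤ (Lat p)) := by
      simp [act]
    rw [h3]
    simp
  | add P Q ihP ihQ =>
    obtain ⟨g1, hg1⟩ := ihP
    obtain ⟨g2, hg2⟩ := ihQ
    refine ⟨g1 + g2, ?_⟩
    have e1 : act p (psi p (P + Q)) = act p (psi p P) + act p (psi p Q) := by
      simp [act]
    have e2 : eisEv p (P + Q) = eisEv p P + eisEv p Q := by simp [eisEv]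
    rw [e1, e2, LinearMap.add_apply, add_smul, smul_add, ← hg1, ← hg2]
    abel
  | mul_X P ℓ ihP =>
    obtain ⟨g1, hg1⟩ := ihP
    obtain ⟨g2, hg2⟩ := eigen_mod_X p n hn h c hh ℓ
    refine ⟨eisEv p (MvPolynomial.X ℓ) • g1 + act p (psi p P) g2, ?_⟩
    have e1 : act p (psi p (P * MvPolynomial.X ℓ)) =
        act p (psi p P) * act p (psi p (MvPolynomial.X ℓ)) := by
      simp [act]
    have e2 : eisEv p (P * MvPolynomial.X ℓ) = eisEv p P * eisEv p (MvPolynomial.X ℓ) := by
      simp [eisEv]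
    have e3 : act p (psi p (MvPolynomial.X ℓ)) h = eisEv p (MvPolynomial.X ℓ) • h + n • g2 := by
      rw [← hg2]; abel
    have e4 : act p (psi p P) h = eisEv p P • h + n • g1 := by
      rw [← hg1]; abel
    rw [e1, e2, Module.End.mul_apply, e3, map_add, map_smul, map_smul, e4]
    simp only [smul_add, mul_smul]
    rw [smul_comm (eisEv p (MvPolynomial.X ℓ)) n g1,
      smul_comm (eisEv p (MvPolynomial.X ℓ)) (eisEv p P) h]
    abel

/-- **Lower bound.** If `h ∈ L` is congruent modulo `n` to `c •` (Eisenstein series) with `c`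
prime to `n`, then every integer in the Eisenstein ideal `I ⊆ T` is divisible by `n`. -/
theorem dvd_of_intCast_mem (hc : IsCoprime c n) (j : ℤ) (hj : ((j : ℤ) : TT p) ∈ eisI p) :
    n ∣ j := by
  have hp : p.Prime := Fact.out
  obtain ⟨P, hP0, hPj⟩ := (mem_eisI_iff p _).mp hj
  obtain ⟨g, hg⟩ := eigen_mod p n hn h c hh P
  rw [hP0, zero_smul, sub_zero, hPj] at hg
  have h3 : act p ((j : ℤ) : TT p) = (j : Module.End ℤ (Lat p)) := by
    simp [act]
  rw [h3] at hg
  have h4 : (j : Module.End ℤ (Lat p)) h = j • h := by simp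
  rw [h4] at hg
  have h5 := congrArg (coefZ p 1) hg
  rw [map_smul, map_smul, smul_eq_mul, smul_eq_mul] at h5
  have h6 := hh 1 le_rfl
  rw [sigmaP_one p hp.one_lt] at h6
  obtain ⟨a, ha⟩ := h6
  have h7 : n ∣ j * c := by
    refine ⟨coefZ p 1 g - j * a, ?_⟩
    have : coefZ p 1 h = c + n * a := by
      have := ha
      push_cast at this
      linear_combination this
    rw [this] at h5
    linear_combination h5
  exact hc.symm.dvd_of_dvd_mul_right h7

end LB

/-! ### Duality -/

section UB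

/-- The pairing `L × T → ℤ`, `(f, t) ↦ a₁(t f)`. -/
def pairing : Lat p →ₗ[ℤ] TT p →ₗ[ℤ] ℤ :=
  LinearMap.mk₂ ℤ (fun f t => coefZ p 1 (act p t f))
    (fun f g t => by simp only [map_add])
    (fun c f t => by simp only [map_smul])
    (fun f t s => by simp [act])
    (fun c f t => by simp [act])

theorem pairing_apply (f : Lat p) (t : TT p) : pairing p f t = coefZ p 1 (act p t f) := rfl

theorem pairing_injective : Function.Injective (pairing p) := by
  rw [injective_iff_map_eq_zero]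
  intro f hf
  apply eq_zero_of_coefZ
  intro k hk
  obtain ⟨P, hP, -⟩ := exists_coeff_op p k hk
  rw [← hP f, ← pairing_apply, hf]
  rfl

theorem pairing_flip_injective : Function.Injective (pairing p).flip := by
  rw [injective_iff_map_eq_zero]
  intro t ht
  have h1 : ∀ f, coefZ p 1 (act p t f) = 0 := fun f => by
    have := LinearMap.congr_fun ht f
    simpa [pairing_apply] using this
  have h2 : ∀ f, act p t f = 0 := by
    intro f
    apply eq_zero_of_coefZ
    intro k hk
    obtain ⟨P, hP, -⟩ := exists_coeff_op p k hk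
    rw [← hP (act p t f)]
    have hcomm : act p (psi p P) (act p t f) = act p t (act p (psi p P) f) := by
      have e1 : act p (psi p P) (act p t f) = act p (psi p P * t) f := by simp [act]
      have e2 : act p t (act p (psi p P) f) = act p (t * psi p P) f := by simp [act]
      rw [e1, e2, mul_comm]
    rw [hcomm]
    exact h1 _
  exact Subtype.ext (LinearMap.ext h2)

/-- **Duality.** A ring homomorphism `χ : T → ℤ/m` which kills the Eisenstein ideal is the
reduction modulo `m` of the `q`-expansion of some `f ∈ L`. -/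
theorem exists_lat_congr (m : ℕ) (χ : TT p →+* ZMod m) (hχ : ∀ x ∈ eisI p, χ x = 0) :
    ∃ f : Lat p, ∀ k : ℕ, 1 ≤ k → (m : ℤ) ∣ coefZ p k f - (sigmaP p k : ℤ) := by
  haveI := intLattice.moduleFinite p
  haveI := intLattice.moduleFree p
  obtain ⟨φ, hφ⟩ := Module.projective_lifting_property
    (Int.castAddHom (ZMod m)).toIntLinearMap χ.toAddMonoidHom.toIntLinearMap
    (ZMod.intCast_surjective)
  have hφ' : ∀ t, ((φ t : ℤ) : ZMod m) = χ t := fun t => LinearMap.congr_fun hφ t
  obtain ⟨N, hN, f₀, hf₀⟩ := exists_smul_eq_pairing (pairing p) (pairing_injective p)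
    (pairing_flip_injective p) φ
  have hcoef : ∀ k, 1 ≤ k → ∃ P, eisEv p P = (sigmaP p k : ℤ) ∧
      coefZ p k f₀ = N * φ (psi p P) := by
    intro k hk
    obtain ⟨P, hP1, hP2⟩ := exists_coeff_op p k hk
    refine ⟨P, hP2, ?_⟩
    rw [← hP1 f₀, ← pairing_apply, hf₀]
    rfl
  obtain ⟨f, hf⟩ := exists_lat_zsmul_eq p f₀ N hN (fun k hk => by
    obtain ⟨P, -, h⟩ := hcoef k hk
    exact ⟨_, h⟩)
  refine ⟨f, fun k hk => ?_⟩
  obtain ⟨P, hP2, hP3⟩ := hcoef k hk
  have h1 : coefZ p k f = φ (psi p P) := by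
    rw [← hf, map_smul, smul_eq_mul] at hP3
    exact mul_left_cancel₀ hN hP3
  have h2 : χ (psi p P) = ((sigmaP p k : ℤ) : ZMod m) := by
    have := hχ _ (psi_sub_intCast_mem p P)
    rw [map_sub, map_intCast, sub_eq_zero, hP2] at this
    exact this
  rw [h1]
  have h3 : ((φ (psi p P) : ℤ) : ZMod m) = ((sigmaP p k : ℤ) : ZMod m) := by rw [hφ', h2]
  exact (ZMod.intCast_eq_intCast_iff_dvd_sub _ _ _).mp h3.symm

end UB

end Fermat.Agent.S16.H548
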