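import Fermat.Agent.S16.H548.AlgBasic

/-!
# S16 / WP ALG (helper548): Hecke action on `q`-coefficients

* `psi p : ℤ[X_ℓ] → T` (the map of the frozen statement) and its action on the lattice;
* coefficients of `T_ℓ f`, `U_p f`;
* `exists_coeff_poly` : for every `k ≥ 1` a polynomial `P_k` in the Hecke operators with
  `a₁(P_k f) = a_k(f)` and Eisenstein eigenvalue `sigmaP p k`;
* surjectivity of `psi`.
-/

set_option autoImplicit false
set_option linter.unusedSectionVars false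

noncomputable section

namespace Fermat.Agent.S16.H548

open ModularCurve CuspForm ModularFormClass UpperHalfPlane
open P2MW.S_CuspForm_intLattice_fg
open Fermat.Agent.S16

variable (p : ℕ) [Fact p.Prime]

/-- The Hecke ring `T ⊆ End_ℤ(L)` of the frozen statement. -/
abbrev TT : Type := ↥(CuspForm.heckeLatticeAlgebra p ∅)

/-- The ring homomorphism `ℤ[X_ℓ] → T` of the frozen statement. -/
abbrev psi : HeckeAlg →+* TT p :=
  (CuspForm.latticeRestrictHom p ∅).toRingHom.comp (CuspForm.heckeEvalForms p 2)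

/-- The evaluation of a Hecke polynomial as an endomorphism of `S₂(Γ₀(p))`. -/
abbrev evEnd (P : HeckeAlg) : Module.End ℂ (S2 p) :=
  ((CuspForm.heckeEvalForms p 2 P : CuspForm.heckeAlgebra p 2 ∅) : Module.End ℂ (S2 p))

theorem psi_apply_coe (P : HeckeAlg) (f : Lat p) :
    ((((psi p P : TT p) : Module.End ℤ (Lat p)) f : Lat p) : S2 p) = evEnd p P (f : S2 p) := rfl

theorem evEnd_one : evEnd p 1 = 1 := by
  simp [evEnd]

theorem evEnd_mul (P Q : HeckeAlg) : evEnd p (P * Q) = evEnd p P * evEnd p Q := by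
  simp [evEnd]

theorem evEnd_add (P Q : HeckeAlg) : evEnd p (P + Q) = evEnd p P + evEnd p Q := by
  simp [evEnd]

theorem evEnd_sub (P Q : HeckeAlg) : evEnd p (P - Q) = evEnd p P - evEnd p Q := by
  simp [evEnd]

theorem evEnd_C (a : ℤ) : evEnd p (MvPolynomial.C a) = (a : ℂ) • (1 : Module.End ℂ (S2 p)) := by
  unfold evEnd
  rw [CuspForm.heckeEvalForms_C]
  simp only [eq_intCast, SubringClass.coe_intCast]
  rw [Int.cast_smul_eq_zsmul, zsmul_one]

theorem evEnd_C_apply (a : ℤ) (f : S2 p) : evEnd p (MvPolynomial.C a) f = (a : ℂ) • f := by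
  rw [evEnd_C]
  simp

/-! ### The generators -/

theorem evEnd_X_of_ne (ℓ : Nat.Primes) (h : ¬ (ℓ : ℕ) ∣ p) :
    evEnd p (MvPolynomial.X ℓ) = CuspForm.heckeTLin 2 ℓ.2 h := by
  have := CuspForm.heckeEvalForms_heckeGen_of_not_dvd (N := p) (k := 2) h
  unfold evEnd
  rw [show (MvPolynomial.X ℓ : HeckeAlg) = heckeGen ℓ from rfl, this]
  rfl

theorem evEnd_X_of_dvd (ℓ : Nat.Primes) (h : (ℓ : ℕ) ∣ p) :
    evEnd p (MvPolynomial.X ℓ) = CuspForm.heckeULin 2 h := by
  have := CuspForm.heckeEvalForms_heckeGen_of_dvd (N := p) (k := 2) h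
  unfold evEnd
  rw [show (MvPolynomial.X ℓ : HeckeAlg) = heckeGen ℓ from rfl, this]
  rfl

/-- Coefficients of `T_ℓ f`, `ℓ ≠ p`. -/
theorem coefC_X_of_ne (ℓ : Nat.Primes) (h : ¬ (ℓ : ℕ) ∣ p) (f : S2 p) (n : ℕ) :
    coefC p n (evEnd p (MvPolynomial.X ℓ) f) =
      coefC p (n * ℓ) f + if (ℓ : ℕ) ∣ n then (ℓ : ℂ) * coefC p (n / ℓ) f else 0 := by
  rw [evEnd_X_of_ne p ℓ h, coefC_apply, CuspForm.coe_heckeTLin_apply,
    ModularFormClass.qCoeff_heckeT f (W3WsD.hΓ p) ℓ.2.ne_zero n, ModularForm.coeffHeckeT_apply]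
  simp [coefC_apply]

/-- Coefficients of `U_p f`. -/
theorem coefC_X_of_dvd (ℓ : Nat.Primes) (h : (ℓ : ℕ) ∣ p) (f : S2 p) (n : ℕ) :
    coefC p n (evEnd p (MvPolynomial.X ℓ) f) = coefC p (n * ℓ) f := by
  rw [evEnd_X_of_dvd p ℓ h, coefC_apply, CuspForm.coe_heckeULin_apply,
    ModularFormClass.qCoeff_heckeU f (W3WsD.hΓ p) ℓ.2.ne_zero n, ModularForm.coeffHeckeU_apply]
  rfl

/-- The Eisenstein eigenvalue of a Hecke polynomial. -/
abbrev eisEv (P : HeckeAlg) : ℤ := MvPolynomial.aeval (eisensteinSystem p) P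

theorem eisEv_X_of_ne (ℓ : Nat.Primes) (h : ¬ (ℓ : ℕ) ∣ p) :
    eisEv p (MvPolynomial.X ℓ) = 1 + (ℓ : ℕ) := by
  simp [eisEv, eisensteinSystem_of_not_dvd h]

theorem eisEv_X_of_dvd (ℓ : Nat.Primes) (h : (ℓ : ℕ) ∣ p) :
    eisEv p (MvPolynomial.X ℓ) = 1 := by
  simp [eisEv, eisensteinSystem_of_dvd h]

/-- For every `k ≥ 1` there is a Hecke polynomial `P_k` with `a₁(P_k f) = a_k(f)` for all `f`,
whose Eisenstein eigenvalue is `sigmaP p k`. -/
theorem exists_coeff_poly (k : ℕ) (hk : 1 ≤ k) : ∃ P : HeckeAlg,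
    (∀ f : S2 p, coefC p 1 (evEnd p P f) = coefC p k f) ∧
      eisEv p P = (sigmaP p k : ℤ) := by
  have hp : p.Prime := Fact.out
  induction k using Nat.strong_induction_on with
  | _ k ih =>
    rcases eq_or_lt_of_le hk with h1 | h1
    · subst h1
      refine ⟨1, fun f => ?_, ?_⟩
      · rw [evEnd_one]; rfl
      · rw [sigmaP_one p hp.one_lt]; simp [eisEv]
    · have hℓ : (k.minFac).Prime := Nat.minFac_prime (by omega)
      obtain ⟨k', hk'⟩ : ∃ k', k = k' * k.minFac :=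
        ⟨k / k.minFac, (Nat.div_mul_cancel (Nat.minFac_dvd k)).symm⟩
      set ℓ : ℕ := k.minFac with hℓdef
      have hk'pos : 1 ≤ k' := by
        rcases Nat.eq_zero_or_pos k' with h0 | h0
        · rw [h0, zero_mul] at hk'; omega
        · exact h0
      have hk'lt : k' < k := by
        rw [hk']
        exact lt_mul_of_one_lt_right hk'pos hℓ.one_lt
      obtain ⟨P', hP'1, hP'2⟩ := ih k' hk'lt hk'pos
      by_cases hℓp : ℓ ∣ p
      · -- `ℓ = p`
        have hℓeq : ℓ = p := (Nat.prime_dvd_prime_iff_eq hℓ hp).mp hℓp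
        refine ⟨P' * MvPolynomial.X ⟨ℓ, hℓ⟩, fun f => ?_, ?_⟩
        · rw [evEnd_mul, Module.End.mul_apply, hP'1, coefC_X_of_dvd p ⟨ℓ, hℓ⟩ hℓp, hk']
        · rw [eisEv, map_mul]
          change eisEv p P' * eisEv p (MvPolynomial.X ⟨ℓ, hℓ⟩) = _
          rw [hP'2, eisEv_X_of_dvd p ⟨ℓ, hℓ⟩ hℓp, mul_one, hk', hℓeq, sigmaP_mul_self p k' hp]
      · -- `ℓ ≠ p`
        have hne : ℓ ≠ p := fun h => hℓp (h ▸ dvd_rfl)
        have hid := sigmaP_mul_prime p k' ℓ hp hℓ hne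
        by_cases hdiv : ℓ ∣ k'
        · have hk''pos : 1 ≤ k' / ℓ := Nat.div_pos (Nat.le_of_dvd hk'pos hdiv) hℓ.pos
          have hk''lt : k' / ℓ < k := lt_of_le_of_lt (Nat.div_le_self _ _) hk'lt
          obtain ⟨P'', hP''1, hP''2⟩ := ih (k' / ℓ) hk''lt hk''pos
          refine ⟨P' * MvPolynomial.X ⟨ℓ, hℓ⟩ - MvPolynomial.C (ℓ : ℤ) * P'', fun f => ?_, ?_⟩
          · rw [evEnd_sub, evEnd_mul, evEnd_mul, LinearMap.sub_apply, map_sub,
              Module.End.mul_apply, Module.End.mul_apply, hP'1, coefC_X_of_ne p ⟨ℓ, hℓ⟩ hℓp,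
              evEnd_C_apply, map_smul, hP''1, hk']
            simp only [if_pos hdiv, smul_eq_mul]
            push_cast
            ring
          · rw [eisEv, map_sub, map_mul, map_mul]
            change eisEv p P' * eisEv p (MvPolynomial.X ⟨ℓ, hℓ⟩) -
              eisEv p (MvPolynomial.C (ℓ : ℤ)) * eisEv p P'' = _
            rw [hP'2, hP''2, eisEv_X_of_ne p ⟨ℓ, hℓ⟩ hℓp, hk']
            rw [if_pos hdiv] at hid
            simp only [eisEv, MvPolynomial.aeval_C, Algebra.algebraMap_self, RingHom.id_apply]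
            have hid' : (sigmaP p (k' * ℓ) : ℤ) + (ℓ : ℤ) * (sigmaP p (k' / ℓ) : ℤ) =
                (1 + (ℓ : ℤ)) * (sigmaP p k' : ℤ) := by exact_mod_cast hid
            linear_combination -hid'
        · refine ⟨P' * MvPolynomial.X ⟨ℓ, hℓ⟩, fun f => ?_, ?_⟩
          · rw [evEnd_mul, Module.End.mul_apply, hP'1, coefC_X_of_ne p ⟨ℓ, hℓ⟩ hℓp, hk']
            simp only [if_neg hdiv, add_zero]
          · rw [eisEv, map_mul]
            change eisEv p P' * eisEv p (MvPolynomial.X ⟨ℓ, hℓ⟩) = _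
            rw [hP'2, eisEv_X_of_ne p ⟨ℓ, hℓ⟩ hℓp, hk']
            rw [if_neg hdiv, add_zero] at hid
            have hid' : (sigmaP p (k' * ℓ) : ℤ) = (1 + (ℓ : ℤ)) * (sigmaP p k' : ℤ) := by
              exact_mod_cast hid
            simp only
            linear_combination -hid'

end Fermat.Agent.S16.H548
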