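import Mathlib

/-!
# S16 / WP ALG (helper548): abstract duality over `ℤ`

If `B : L × T → ℤ` is a bilinear pairing of finite free `ℤ`-modules which is non-degenerate on
both sides, then the image of `L` in `Hom(T, ℤ)` has finite index; in particular every functional
on `T` has a non-zero multiple which is represented by an element of `L`.
-/

set_option autoImplicit false

namespace Fermat.Agent.S16.H548

open Module

theorem exists_smul_eq_pairing {L T : Type*} [AddCommGroup L] [AddCommGroup T]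
    [Module.Free ℤ L] [Module.Finite ℤ L] [Module.Free ℤ T] [Module.Finite ℤ T]
    (B : L →ₗ[ℤ] T →ₗ[ℤ] ℤ) (h1 : Function.Injective B) (h2 : Function.Injective B.flip)
    (φ : T →ₗ[ℤ] ℤ) : ∃ N : ℤ, N ≠ 0 ∧ ∃ f : L, B f = N • φ := by
  have hL : finrank ℤ (L →ₗ[ℤ] ℤ) = finrank ℤ L := by
    rw [Module.finrank_linearMap, Module.finrank_self, mul_one]
  have hT : finrank ℤ (T →ₗ[ℤ] ℤ) = finrank ℤ T := by
    rw [Module.finrank_linearMap, Module.finrank_self, mul_one]
  have le1 : finrank ℤ L ≤ finrank ℤ T :=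
    hT ▸ LinearMap.finrank_le_finrank_of_injective h1
  have le2 : finrank ℤ T ≤ finrank ℤ L :=
    hL ▸ LinearMap.finrank_le_finrank_of_injective h2
  have heq : finrank ℤ L = finrank ℤ (T →ₗ[ℤ] ℤ) := by rw [hT]; exact le_antisymm le1 le2
  have hrange : finrank ℤ (LinearMap.range B) = finrank ℤ (T →ₗ[ℤ] ℤ) := by
    rw [LinearMap.finrank_range_of_inj h1, heq]
  have hquot : finrank ℤ ((T →ₗ[ℤ] ℤ) ⧸ LinearMap.range B) = 0 := by
    have := Submodule.finrank_quotient_add_finrank (LinearMap.range B)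
    omega
  have htors : Module.IsTorsion ℤ ((T →ₗ[ℤ] ℤ) ⧸ LinearMap.range B) :=
    Module.finrank_eq_zero_iff_isTorsion.mp hquot
  obtain ⟨a, ha⟩ := @htors (Submodule.Quotient.mk φ)
  refine ⟨(a : ℤ), nonZeroDivisors.coe_ne_zero a, ?_⟩
  have hmem : (a : ℤ) • φ ∈ LinearMap.range B := by
    rw [← Submodule.Quotient.mk_eq_zero, Submodule.Quotient.mk_smul]
    exact ha
  obtain ⟨f, hf⟩ := hmem
  exact ⟨f, hf⟩

end Fermat.Agent.S16.H548
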