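import Fermat.Agent.S16.H548.AlgHecke
import Fermat.Agent.S16.H548.Dual

/-!
# S16 / WP ALG (helper548): the lattice-level statements

With `T ⊆ End_ℤ(L)` the Hecke ring, `ψ : ℤ[X_ℓ] → T`, `I = ψ(Eisenstein ideal)`:

* `psi_surjective`, `psi_sub_intCast_mem` : `ℤ → T ⧸ I` is onto;
* `dvd_of_intCast_mem` (lower bound): if some `h ∈ L` is congruent to `c • (Eisenstein series)`
  modulo `n` with `c` prime to `n`, then `j ∈ I ∩ ℤ` implies `n ∣ j`;
* `exists_lat_congr` (duality): a ring homomorphism `χ : T → ℤ/m` killing `I` is the reduction of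
  the `q`-expansion of some `f ∈ L`, i.e. `a_k(f) ≡ sigmaP p k mod m`.
-/

set_option autoImplicit false
set_option linter.unusedSectionVars false

noncomputable section

namespace Fermat.Agent.S16.H548

open ModularCurve CuspForm ModularFormClass UpperHalfPlane
open P2MW.S_CuspForm_intLattice_fg
open Fermat.Agent.S16

variable (p : ℕ) [Fact p.Prime]

/-- The image of the Eisenstein ideal in `T`. -/
abbrev eisI : Ideal (TT p) := Ideal.map (psi p) (eisensteinIdeal p)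

theorem heckeEvalForms_surjective : Function.Surjective (CuspForm.heckeEvalForms p 2) := by
  rintro ⟨x, hx⟩
  have key : ∃ P, evEnd p P = x := by
    induction hx using Algebra.adjoin_induction with
    | mem x hx =>
      rcases hx with ⟨ℓ, hℓ, hℓN, -, rfl⟩ | ⟨q, hqN, hq, -, rfl⟩
      · exact ⟨MvPolynomial.X ⟨ℓ, hℓ⟩, evEnd_X_of_ne p ⟨ℓ, hℓ⟩ hℓN⟩
      · exact ⟨MvPolynomial.X ⟨q, hq⟩, evEnd_X_of_dvd p ⟨q, hq⟩ hqN⟩
    | algebraMap r =>
      refine ⟨MvPolynomial.C r, ?_⟩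
      rw [evEnd_C, Algebra.algebraMap_eq_smul_one, Int.cast_smul_eq_zsmul]
    | add x y _ _ ihx ihy =>
      obtain ⟨P, rfl⟩ := ihx
      obtain ⟨Q, rfl⟩ := ihy
      exact ⟨P + Q, evEnd_add p P Q⟩
    | mul x y _ _ ihx ihy =>
      obtain ⟨P, rfl⟩ := ihx
      obtain ⟨Q, rfl⟩ := ihy
      exact ⟨P * Q, evEnd_mul p P Q⟩
  obtain ⟨P, hP⟩ := key
  exact ⟨P, Subtype.ext hP⟩

theorem psi_surjective : Function.Surjective (psi p) :=
  (CuspForm.latticeRestrictHom_surjective p ∅).comp (heckeEvalForms_surjective p)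

theorem sub_C_mem_eisensteinIdeal (P : HeckeAlg) :
    P - MvPolynomial.C (eisEv p P) ∈ eisensteinIdeal p := by
  rw [eisensteinIdeal, mem_eigenIdeal_iff, map_sub, MvPolynomial.aeval_C]
  simp [eisEv]

theorem psi_sub_intCast_mem (P : HeckeAlg) : psi p P - ((eisEv p P : ℤ) : TT p) ∈ eisI p := by
  have h := Ideal.mem_map_of_mem (psi p) (sub_C_mem_eisensteinIdeal p P)
  rw [map_sub] at h
  have hC : psi p (MvPolynomial.C (eisEv p P)) = ((eisEv p P : ℤ) : TT p) := by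
    rw [show (MvPolynomial.C (eisEv p P) : HeckeAlg) = ((eisEv p P : ℤ) : HeckeAlg) from
      (map_intCast MvPolynomial.C _), map_intCast]
  rwa [hC] at h

theorem mem_eisI_iff (x : TT p) : x ∈ eisI p ↔ ∃ P : HeckeAlg, eisEv p P = 0 ∧ psi p P = x := by
  rw [eisI, Ideal.mem_map_iff_of_surjective (psi p) (psi_surjective p)]
  constructor
  · rintro ⟨P, hP, rfl⟩
    exact ⟨P, (mem_eigenIdeal_iff _ _).mp hP, rfl⟩
  · rintro ⟨P, hP, rfl⟩
    exact ⟨P, (mem_eigenIdeal_iff _ _).mpr hP, rfl⟩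

/-! ### Integral coefficient formulas -/

/-- the action of `t ∈ T` on the lattice -/
abbrev act (t : TT p) : Module.End ℤ (Lat p) := (t : Module.End ℤ (Lat p))

theorem coefZ_act_psi (P : HeckeAlg) (f : Lat p) (k : ℕ) :
    ((coefZ p k (act p (psi p P) f) : ℤ) : ℂ) = coefC p k (evEnd p P (f : S2 p)) := by
  rw [← coefZ_spec, psi_apply_coe]

theorem coefZ_act_X_of_ne (ℓ : Nat.Primes) (h : ¬ (ℓ : ℕ) ∣ p) (f : Lat p) (k : ℕ) :
    coefZ p k (act p (psi p (MvPolynomial.X ℓ)) f) =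
      coefZ p (k * ℓ) f + if (ℓ : ℕ) ∣ k then (ℓ : ℤ) * coefZ p (k / ℓ) f else 0 := by
  have := coefZ_act_psi p (MvPolynomial.X ℓ) f k
  rw [coefC_X_of_ne p ℓ h, coefZ_spec, coefZ_spec] at this
  have h2 : ((coefZ p (k * ℓ) f : ℂ) + if (ℓ : ℕ) ∣ k then (ℓ : ℂ) * (coefZ p (k / ℓ) f : ℂ) else 0)
      = ((coefZ p (k * ℓ) f + if (ℓ : ℕ) ∣ k then (ℓ : ℤ) * coefZ p (k / ℓ) f else 0 : ℤ) : ℂ) := by
    split_ifs <;> push_cast <;> ring
  rw [h2] at this
  exact_mod_cast this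

theorem coefZ_act_X_of_dvd (ℓ : Nat.Primes) (h : (ℓ : ℕ) ∣ p) (f : Lat p) (k : ℕ) :
    coefZ p k (act p (psi p (MvPolynomial.X ℓ)) f) = coefZ p (k * ℓ) f := by
  have := coefZ_act_psi p (MvPolynomial.X ℓ) f k
  rw [coefC_X_of_dvd p ℓ h, coefZ_spec] at this
  exact_mod_cast this

/-- The Hecke operator `t_k` with `a₁(t_k f) = a_k(f)`. -/
theorem exists_coeff_op (k : ℕ) (hk : 1 ≤ k) : ∃ P : HeckeAlg,
    (∀ f : Lat p, coefZ p 1 (act p (psi p P) f) = coefZ p k f) ∧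
      eisEv p P = (sigmaP p k : ℤ) := by
  obtain ⟨P, hP1, hP2⟩ := exists_coeff_poly p k hk
  refine ⟨P, fun f => ?_, hP2⟩
  have := coefZ_act_psi p P f 1
  rw [hP1, coefZ_spec] at this
  exact_mod_cast this

/-- Saturation, integral version. -/
theorem exists_lat_zsmul_eq (x : Lat p) (n : ℤ) (hn : n ≠ 0)
    (h : ∀ k : ℕ, 1 ≤ k → n ∣ coefZ p k x) : ∃ g : Lat p, n • g = x := by
  obtain ⟨g, hg⟩ := exists_lat_smul_eq p (x : S2 p) n hn (fun k => by
    rcases Nat.eq_zero_or_pos k with rfl | hk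
    · exact ⟨0, by rw [coefC_zero_apply]; simp⟩
    · obtain ⟨m, hm⟩ := h k hk
      exact ⟨m, by rw [coefZ_spec, hm]; push_cast; ring⟩)
  exact ⟨g, Subtype.ext (by rw [Submodule.coe_smul, hg])⟩

end Fermat.Agent.S16.H548
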